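import Mathlib
import Fermat.Agent.S29.Dict.BridgeInvC
import Fermat.Agent.S24.CuspExp
import Fermat.Agent.S24.JPoly

/-!
# S24 (M6): the invariance statement (Inv), integrality of the `J_d` over `K[J]`,
transcendence of `J`, finiteness of `F / K(J)`

Abstract layer (Mathlib only).  `F/K` a field extension generated by a set `gens`, `y ∈ F`,
`Φ : F →+* M` a ring homomorphism into a field, `g c : M →+* M` (`c` in a finite type `ι`) ring
endomorphisms (the conjugations), `ρ δ : M →+* M` (`δ` in a group `G` acting on `ι`) ring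
endomorphisms which permute the conjugates: `ρ δ (g c (Φ f)) = g (δ • c) (Φ f)`.

The analytic input is the hypothesis `H`: every `ρ`-invariant element of the subring of `M`
generated by the constants `Φ K` and the conjugates `g c (Φ s)`, `s ∈ gens`, is `Φ` of a polynomial
in `y` with coefficients in `K`.

Output:
* `InvC.exists_prod_eq` (Inv): `∀ f, ∃ n ∈ K⟮y⟯, Φ n = ∏ c, g c (Φ f)` (the shape of `hinv` in
  `Exhaust.exists_eq_candidate`);
* `InvC.isIntegral_of_mem_adjoin`: every element of `K[gens]` is integral over `K[y]`;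
* `InvC.finiteDimensional`: if `gens` is finite then `F / K(y)` is finite.

Concrete layer: `F = FF N`, `Φ` a bridge, `ι = Q N`, `g c = compMer c.out⁻¹`, `ρ δ = compMer δ⁻¹`.
-/

set_option autoImplicit false
set_option linter.unusedSectionVars false
set_option linter.unusedVariables false

open Polynomial IntermediateField

namespace Fermat.Agent.S29.Dict.InvC

open Fermat.Agent.S24

noncomputable section

/-! ### abstract layer -/

section abstract

variable {K F M : Type*} [Field K] [Field F] [Algebra K F] [Field M]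
  (Φ : F →+* M) {ι : Type*} [Fintype ι] [DecidableEq ι] (g : ι → M →+* M)
  {G : Type*} [Group G] [MulAction G ι] (ρ : G → M →+* M)

/-- the subring of `M` generated by the constants and the conjugates of the generators -/
def conjRing (gens : Set F) : Subring M :=
  Subring.closure (Set.range (fun k : K => Φ (algebraMap K F k)) ∪
    {x | ∃ c : ι, ∃ s ∈ gens, x = g c (Φ s)})

/-- the analytic input: invariant elements of `conjRing` are polynomials in `y` over `K`. -/
def HInv (y : F) (gens : Set F) : Prop :=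
  ∀ x ∈ conjRing (K := K) Φ g gens, (∀ δ : G, ρ δ x = x) → ∃ P : K[X], Φ (aeval y P) = x

variable {Φ g ρ}

lemma conj_mem_conjRing {gens : Set F}
    (hfixK : ∀ c (k : K), g c (Φ (algebraMap K F k)) = Φ (algebraMap K F k))
    {A : F} (hA : A ∈ Algebra.adjoin K gens) (c : ι) :
    g c (Φ A) ∈ conjRing (K := K) Φ g gens := by
  induction hA using Algebra.adjoin_induction with
  | mem s hs => exact Subring.subset_closure (Or.inr ⟨c, s, hs, rfl⟩)
  | algebraMap k =>
    rw [hfixK]
    exact Subring.subset_closure (Or.inl ⟨k, rfl⟩)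
  | add a b _ _ ha hb =>
    rw [map_add, map_add]
    exact Subring.add_mem _ ha hb
  | mul a b _ _ ha hb =>
    rw [map_mul, map_mul]
    exact Subring.mul_mem _ ha hb

/-- the "characteristic polynomial" of `A`: `∏ c, (X - g c (Φ A))` -/
def conjPoly (Φ : F →+* M) (g : ι → M →+* M) (A : F) : M[X] := ∏ c : ι, (X - C (g c (Φ A)))

lemma conjPoly_monic (A : F) : (conjPoly Φ g A).Monic :=
  monic_prod_of_monic _ _ fun c _ => monic_X_sub_C _

lemma conjPoly_map_rho (hρ : ∀ δ c f, ρ δ (g c (Φ f)) = g (δ • c) (Φ f)) (δ : G) (A : F) :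
    (conjPoly Φ g A).map (ρ δ) = conjPoly Φ g A := by
  unfold conjPoly
  rw [Polynomial.map_prod]
  simp only [Polynomial.map_sub, Polynomial.map_X, Polynomial.map_C, hρ]
  exact Fintype.prod_equiv (MulAction.toPerm δ) _ _ fun c => rfl

lemma rho_coeff_conjPoly (hρ : ∀ δ c f, ρ δ (g c (Φ f)) = g (δ • c) (Φ f)) (δ : G) (A : F)
    (k : ℕ) : ρ δ ((conjPoly Φ g A).coeff k) = (conjPoly Φ g A).coeff k := by
  conv_rhs => rw [← conjPoly_map_rho hρ δ A]
  rw [Polynomial.coeff_map]

lemma coeff_conjPoly_mem {gens : Set F}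
    (hfixK : ∀ c (k : K), g c (Φ (algebraMap K F k)) = Φ (algebraMap K F k))
    {A : F} (hA : A ∈ Algebra.adjoin K gens) (k : ℕ) :
    (conjPoly Φ g A).coeff k ∈ conjRing (K := K) Φ g gens := by
  set R := conjRing (K := K) Φ g gens
  have h : conjPoly Φ g A
      = (∏ c : ι, (X - C (⟨g c (Φ A), conj_mem_conjRing hfixK hA c⟩ : R))).map R.subtype := by
    unfold conjPoly
    rw [Polynomial.map_prod]
    simp
  rw [h, Polynomial.coeff_map]
  exact Subtype.property _

lemma prod_conj_mem {gens : Set F}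
    (hfixK : ∀ c (k : K), g c (Φ (algebraMap K F k)) = Φ (algebraMap K F k))
    {A : F} (hA : A ∈ Algebra.adjoin K gens) :
    ∏ c : ι, g c (Φ A) ∈ conjRing (K := K) Φ g gens :=
  Subring.prod_mem _ fun c _ => conj_mem_conjRing hfixK hA c

lemma rho_prod_conj (hρ : ∀ δ c f, ρ δ (g c (Φ f)) = g (δ • c) (Φ f)) (δ : G) (A : F) :
    ρ δ (∏ c : ι, g c (Φ A)) = ∏ c : ι, g c (Φ A) := by
  rw [map_prod]
  simp only [hρ]
  exact Fintype.prod_equiv (MulAction.toPerm δ) _ _ fun c => rfl

/-- **(Inv)**, abstract form. -/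
theorem exists_prod_eq
    (hρ : ∀ δ c f, ρ δ (g c (Φ f)) = g (δ • c) (Φ f))
    (hfixK : ∀ c (k : K), g c (Φ (algebraMap K F k)) = Φ (algebraMap K F k))
    (y : F) (gens : Set F) (hgens : IntermediateField.adjoin K gens = ⊤)
    (H : HInv (K := K) Φ g ρ y gens) (f : F) :
    ∃ n ∈ IntermediateField.adjoin K {y}, Φ n = ∏ c, g c (Φ f) := by
  have key : ∀ A ∈ Algebra.adjoin K gens, ∃ P : K[X], Φ (aeval y P) = ∏ c : ι, g c (Φ A) :=
    fun A hA => H _ (prod_conj_mem hfixK hA) fun δ => rho_prod_conj hρ δ A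
  have hf : f ∈ IntermediateField.adjoin K gens := by rw [hgens]; trivial
  obtain ⟨A, hA, B, hB, rfl⟩ := mem_adjoin_iff_div.mp hf
  obtain ⟨PA, hPA⟩ := key A hA
  obtain ⟨PB, hPB⟩ := key B hB
  have hmem : ∀ P : K[X], aeval y P ∈ IntermediateField.adjoin K {y} := fun P =>
    (IntermediateField.algebra_adjoin_le_adjoin K _)
      (by rw [Algebra.adjoin_singleton_eq_range_aeval]; exact ⟨P, rfl⟩)
  refine ⟨aeval y PA / aeval y PB, div_mem (hmem PA) (hmem PB), ?_⟩
  rw [map_div₀, hPA, hPB, ← Finset.prod_div_distrib]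
  refine Finset.prod_congr rfl fun c _ => ?_
  rw [map_div₀, map_div₀]

/-- elements of `K[gens]` are integral over `K[y]`. -/
theorem isIntegral_of_mem_adjoin
    (hρ : ∀ δ c f, ρ δ (g c (Φ f)) = g (δ • c) (Φ f))
    (hfixK : ∀ c (k : K), g c (Φ (algebraMap K F k)) = Φ (algebraMap K F k))
    (c0 : ι) (hc0 : ∀ f : F, g c0 (Φ f) = Φ f)
    (y : F) (gens : Set F)
    (H : HInv (K := K) Φ g ρ y gens) {A : F} (hA : A ∈ Algebra.adjoin K gens) :
    IsIntegral (Algebra.adjoin K {y}) A := by
  set φ : Algebra.adjoin K {y} →+* M := Φ.comp (algebraMap (Algebra.adjoin K {y}) F) with hφ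
  have hlift : conjPoly Φ g A ∈ Polynomial.lifts φ := by
    rw [Polynomial.lifts_iff_coeff_lifts]
    intro k
    obtain ⟨P, hP⟩ := H _ (coeff_conjPoly_mem hfixK hA k) fun δ => rho_coeff_conjPoly hρ δ A k
    refine ⟨⟨aeval y P, ?_⟩, hP⟩
    rw [Algebra.adjoin_singleton_eq_range_aeval]
    exact ⟨P, rfl⟩
  obtain ⟨q, hq, -, hqm⟩ := Polynomial.lifts_and_degree_eq_and_monic hlift (conjPoly_monic A)
  refine ⟨q, hqm, ?_⟩
  have h1 : Φ (eval₂ (algebraMap (Algebra.adjoin K {y}) F) A q) = 0 := by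
    rw [Polynomial.hom_eval₂, ← Polynomial.eval_map, hq]
    unfold conjPoly
    rw [Polynomial.eval_prod]
    refine Finset.prod_eq_zero (Finset.mem_univ c0) ?_
    rw [hc0]
    simp
  exact (map_eq_zero Φ).mp h1

/-- finiteness of `F / K(y)` when `gens` is finite. -/
theorem finiteDimensional
    (hρ : ∀ δ c f, ρ δ (g c (Φ f)) = g (δ • c) (Φ f))
    (hfixK : ∀ c (k : K), g c (Φ (algebraMap K F k)) = Φ (algebraMap K F k))
    (c0 : ι) (hc0 : ∀ f : F, g c0 (Φ f) = Φ f)
    (y : F) (gens : Set F) (hfin : gens.Finite) (hgens : IntermediateField.adjoin K gens = ⊤)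
    (H : HInv (K := K) Φ g ρ y gens) :
    FiniteDimensional (IntermediateField.adjoin K {y}) F := by
  have hint : ∀ s ∈ gens, IsIntegral (IntermediateField.adjoin K {y}) s := by
    intro s hs
    have h1 : IsIntegral (Algebra.adjoin K {y}) s :=
      isIntegral_of_mem_adjoin hρ hfixK c0 hc0 y gens H (Algebra.subset_adjoin hs)
    obtain ⟨p, hpm, hp0⟩ := h1
    let incl : Algebra.adjoin K {y} →+* IntermediateField.adjoin K {y} :=
      (Subalgebra.inclusion (IntermediateField.algebra_adjoin_le_adjoin K {y})).toRingHom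
    refine ⟨p.map incl, hpm.map incl, ?_⟩
    rw [Polynomial.eval₂_map]
    exact hp0
  have := hfin.to_subtype
  have h2 : FiniteDimensional (IntermediateField.adjoin K {y})
      (IntermediateField.adjoin (IntermediateField.adjoin K {y}) gens) :=
    IntermediateField.finiteDimensional_adjoin hint
  have h3 : IntermediateField.adjoin (IntermediateField.adjoin K {y}) gens = ⊤ := by
    have h4 : (IntermediateField.adjoin (IntermediateField.adjoin K {y}) gens).restrictScalars K
        = ⊤ := by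
      rw [IntermediateField.restrictScalars_adjoin, eq_top_iff, ← hgens]
      exact IntermediateField.adjoin.mono K _ _ Set.subset_union_right
    rw [eq_top_iff]
    intro x _
    have hx : x ∈ (IntermediateField.adjoin (IntermediateField.adjoin K {y}) gens).restrictScalars
        K := by
      rw [h4]; trivial
    exact hx
  rw [h3] at h2
  exact (IntermediateField.topEquiv (F := IntermediateField.adjoin K {y})
    (E := F)).toLinearEquiv.finiteDimensional

end abstract

/-! ### the concrete generators of `F = FF N` -/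

section gens

open Fermat.Agent.S29.Dict.BridgeInvC ModularCurve

/-- the set of generators `J_d`, `d ∣ N`, of `F`. -/
def gensFF (N : ℕ) : Set (FF N) := {x | ∃ (d : ℕ) (_ : NeZero d) (hd : d ∣ N), x = Jd N d hd}

lemma Jd_mem_gensFF (N d : ℕ) [NeZero d] (hd : d ∣ N) : Jd N d hd ∈ gensFF N :=
  ⟨d, inferInstance, hd, rfl⟩

lemma gensFF_finite (N : ℕ) [NeZero N] : (gensFF N).Finite := by
  classical
  have hsub : gensFF N ⊆ Set.range (fun d : N.divisors =>
      if h : (d : ℕ) ≠ 0 then
        (haveI : NeZero (d : ℕ) := ⟨h⟩; Jd N d (Nat.dvd_of_mem_divisors d.2))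
      else 0) := by
    rintro x ⟨d, hne, hd, rfl⟩
    refine ⟨⟨d, Nat.mem_divisors.mpr ⟨hd, NeZero.ne N⟩⟩, ?_⟩
    have h : d ≠ 0 := hne.out
    simp only [dif_pos h]
  exact (Set.finite_range _).subset hsub

/-- `F` is generated over `K` by the `J_d`. -/
theorem adjoin_gensFF (N : ℕ) : IntermediateField.adjoin Kbar (gensFF N) = ⊤ := by
  set L : IntermediateField Kbar (FF N) := IntermediateField.adjoin Kbar (gensFF N) with hL
  -- step 1: `coeffEmb y ∈ lift L` for `y` in the rational function field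
  have h0 : ∀ y ∈ modularFunctionFieldFull N, coeffEmb Kbar y ∈ IntermediateField.lift L := by
    intro y hy
    induction hy using IntermediateField.adjoin_induction with
    | mem x hx =>
      obtain ⟨d, hne, hd, rfl⟩ := hx
      have := hne
      have h1 : Jd N d hd ∈ L := IntermediateField.subset_adjoin _ _ (Jd_mem_gensFF N d hd)
      exact (IntermediateField.mem_lift (Jd N d hd)).mpr h1
    | algebraMap r =>
      have : coeffEmb Kbar (algebraMap ℚ (LaurentSeries ℚ) r)
          = algebraMap Kbar (LaurentSeries Kbar) (algebraMap ℚ Kbar r) := by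
        rw [algebraMap_laurentSeries_eq_single, algebraMap_laurentSeries_eq_single, coeffEmb,
          coeffMap_single]
      rw [this]
      exact (IntermediateField.lift L).algebraMap_mem _
    | add a b _ _ ha hb => rw [map_add]; exact add_mem ha hb
    | inv a _ ha => rw [map_inv₀]; exact inv_mem ha
    | mul a b _ _ ha hb => rw [map_mul]; exact mul_mem ha hb
  -- step 2: all of `F`
  have h1 : laurentBaseChange Kbar (modularFunctionFieldFull N) ≤ IntermediateField.lift L := by
    show IntermediateField.adjoin Kbar (⇑(coeffEmb Kbar) ''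
      ((modularFunctionFieldFull N : IntermediateField ℚ (LaurentSeries ℚ)) :
        Set (LaurentSeries ℚ))) ≤ _
    rw [IntermediateField.adjoin_le_iff]
    rintro x ⟨y, hy, rfl⟩
    exact h0 y hy
  rw [eq_top_iff]
  intro x _
  exact (IntermediateField.mem_lift x).mp (h1 x.2)

end gens

/-! ### the embedding `ι : K → ℂ` attached to a bridge, transcendence of `J` -/

section bridge

open Fermat.Agent.S29.Dict.BridgeInvC Fermat.Agent.S24.PsiLe Fermat.Agent.S20 ModularCurve
open UpperHalfPlane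
open scoped MatrixGroups

variable {N : ℕ} {Φ : FF N →+* Mer}

/-- constants `ℂ → Mer` -/
def constMer : ℂ →+* Mer := (algebraMap Hol Mer).comp (algebraMap ℂ Hol)

lemma constMer_injective : Function.Injective constMer := RingHom.injective _

/-- the embedding `ι : K → ℂ` with `Φ (a) = ι a` (as constant functions) -/
def iota (hΦ : IsBridge N Φ) : Kbar →+* ℂ where
  toFun a := (hΦ.const a).choose
  map_one' := by
    apply constMer_injective
    show algebraMap Hol Mer (algebraMap ℂ Hol _) = _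
    rw [← (hΦ.const 1).choose_spec, map_one, map_one, map_one]
  map_mul' a b := by
    apply constMer_injective
    show algebraMap Hol Mer (algebraMap ℂ Hol _) = _
    rw [← (hΦ.const (a * b)).choose_spec, map_mul constMer]
    show _ = algebraMap Hol Mer (algebraMap ℂ Hol _) * algebraMap Hol Mer (algebraMap ℂ Hol _)
    rw [← (hΦ.const a).choose_spec, ← (hΦ.const b).choose_spec, map_mul, map_mul]
  map_zero' := by
    apply constMer_injective
    show algebraMap Hol Mer (algebraMap ℂ Hol _) = _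
    rw [← (hΦ.const 0).choose_spec, map_zero, map_zero, map_zero]
  map_add' a b := by
    apply constMer_injective
    show algebraMap Hol Mer (algebraMap ℂ Hol _) = _
    rw [← (hΦ.const (a + b)).choose_spec, map_add constMer]
    show _ = algebraMap Hol Mer (algebraMap ℂ Hol _) + algebraMap Hol Mer (algebraMap ℂ Hol _)
    rw [← (hΦ.const a).choose_spec, ← (hΦ.const b).choose_spec, map_add, map_add]

lemma phi_algebraMap (hΦ : IsBridge N Φ) (a : Kbar) :
    Φ (algebraMap Kbar (FF N) a) = algebraMap Hol Mer (algebraMap ℂ Hol (iota hΦ a)) :=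
  (hΦ.const a).choose_spec

lemma iota_injective (hΦ : IsBridge N Φ) : Function.Injective (iota hΦ) := RingHom.injective _

/-- the generator `J = J_1`. -/
abbrev Jgen (N : ℕ) : FF N := Jd N 1 (one_dvd N)

/-- the element `jFun` of `Hol`. -/
def jHol : Hol := ⟨jFun, mdiff_jFun⟩

@[simp] lemma jHol_apply (z : ℍ) : (jHol : ℍ → ℂ) z = jFun z := rfl

lemma phi_Jgen (hΦ : IsBridge N Φ) : Φ (Jgen N) = algebraMap Hol Mer jHol := by
  obtain ⟨h, hh, hpt⟩ := hΦ.gen 1 inferInstance (one_dvd N)
  rw [hh]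
  congr 1
  refine Hol.ext fun z => ?_
  rw [hpt z z (by simp)]
  rfl

/-- evaluation at a point, as a ring homomorphism `Hol →+* ℂ`. -/
def evalAt (z : ℍ) : Hol →+* ℂ := (Pi.evalRingHom (fun _ : ℍ => ℂ) z).comp Hol.toSubring.subtype

@[simp] lemma evalAt_apply (z : ℍ) (f : Hol) : evalAt z f = (f : ℍ → ℂ) z := rfl

/-- the holomorphic function `P(j)`, for `P ∈ K[X]`. -/
def polyHol (hΦ : IsBridge N Φ) (P : Kbar[X]) : Hol :=
  eval₂ ((algebraMap ℂ Hol).comp (iota hΦ)) jHol P

lemma polyHol_apply (hΦ : IsBridge N Φ) (P : Kbar[X]) (z : ℍ) :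
    (polyHol hΦ P : ℍ → ℂ) z = (P.map (iota hΦ)).eval (jFun z) := by
  rw [← evalAt_apply, polyHol, Polynomial.hom_eval₂, Polynomial.eval_map]
  congr 1

lemma phi_aeval_Jgen (hΦ : IsBridge N Φ) (P : Kbar[X]) :
    Φ (aeval (Jgen N) P) = algebraMap Hol Mer (polyHol hΦ P) := by
  rw [polyHol, Polynomial.hom_eval₂, aeval_def, Polynomial.hom_eval₂, phi_Jgen hΦ]
  congr 1
  ext a
  exact phi_algebraMap hΦ a

/-- **`J` is transcendental over `K`.** -/
theorem transcendental_Jgen (hΦ : IsBridge N Φ) : Transcendental Kbar (Jgen N) := by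
  intro halg
  obtain ⟨P, hP0, hP⟩ := halg
  apply hP0
  have h1 : algebraMap Hol Mer (polyHol hΦ P) = 0 := by
    rw [← phi_aeval_Jgen hΦ P, hP, map_zero]
  have h2 : polyHol hΦ P = 0 := by
    apply IsFractionRing.injective Hol Mer
    rw [h1, map_zero]
  have h3 : P.map (iota hΦ) = 0 := by
    apply Polynomial.funext
    intro w
    obtain ⟨z, hz⟩ := jFun_surjective w
    rw [← hz, ← polyHol_apply hΦ P z, h2]
    simp
  exact (Polynomial.map_eq_zero_iff (iota_injective hΦ)).mp h3

end bridge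

/-! ### the concrete statements for `F = FF N` -/

section concrete

open Fermat.Agent.S29.Dict.BridgeInvC Fermat.Agent.S24.PsiLe Fermat.Agent.S20 ModularCurve
open UpperHalfPlane
open scoped MatrixGroups

variable {N : ℕ} [NeZero N] {Φ : FF N →+* Mer}

/-- the analytic input (H), concretely: every `SL(2,ℤ)`-invariant element of the subring of `Mer`
generated by the constants and the conjugates of the `J_d` is `Φ` of a polynomial in `J` over `K`. -/
def HInvFF (N : ℕ) [NeZero N] (Φ : FF N →+* Mer) : Prop :=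
  HInv (K := Kbar) Φ (fun c : Q N => compMer c.out⁻¹) (fun δ : SL(2, ℤ) => compMer δ⁻¹)
    (Jgen N) (gensFF N)

lemma hρ_FF (hΦ : IsBridge N Φ) (δ : SL(2, ℤ)) (c : Q N) (f : FF N) :
    compMer δ⁻¹ (compMer c.out⁻¹ (Φ f)) = compMer (δ • c).out⁻¹ (Φ f) :=
  hΦ.compMer_conjMer δ c f

lemma hfixK_FF (hΦ : IsBridge N Φ) (c : Q N) (k : Kbar) :
    compMer c.out⁻¹ (Φ (algebraMap Kbar (FF N) k)) = Φ (algebraMap Kbar (FF N) k) :=
  hΦ.compMer_const _ k

/-- the trivial coset -/
def c0 (N : ℕ) : Q N := QuotientGroup.mk 1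

lemma hc0_FF (hΦ : IsBridge N Φ) (f : FF N) : compMer (c0 N).out⁻¹ (Φ f) = Φ f := by
  have := hΦ.conjMer_mk 1 f
  rw [inv_one, compMer_one] at this
  exact this

/-- **(Inv)** in the shape of `hinv` of `Exhaust.exists_eq_candidate`
(`g c := compMer c.out⁻¹`, i.e. `g c (Φ f) = conjMer Φ c f`). -/
theorem inv_FF (hΦ : IsBridge N Φ) (H : HInvFF N Φ) (f : FF N) :
    ∃ n ∈ IntermediateField.adjoin Kbar {Jgen N}, Φ n = ∏ c : Q N, compMer c.out⁻¹ (Φ f) :=
  exists_prod_eq (K := Kbar) (g := fun c : Q N => compMer c.out⁻¹)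
    (ρ := fun δ : SL(2, ℤ) => compMer δ⁻¹) (hρ_FF hΦ) (hfixK_FF hΦ) (Jgen N) (gensFF N)
    (adjoin_gensFF N) H f

/-- (Inv) stated with `conjMer`. -/
theorem inv_FF' (hΦ : IsBridge N Φ) (H : HInvFF N Φ) (f : FF N) :
    ∃ n ∈ IntermediateField.adjoin Kbar {Jgen N}, Φ n = ∏ c : Q N, conjMer Φ c f :=
  inv_FF hΦ H f

/-- every `J_d` is integral over `K[J]`. -/
theorem isIntegral_Jd (hΦ : IsBridge N Φ) (H : HInvFF N Φ) (d : ℕ) [NeZero d] (hd : d ∣ N) :
    IsIntegral (Algebra.adjoin Kbar {Jgen N}) (Jd N d hd) :=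
  isIntegral_of_mem_adjoin (K := Kbar) (g := fun c : Q N => compMer c.out⁻¹)
    (ρ := fun δ : SL(2, ℤ) => compMer δ⁻¹) (hρ_FF hΦ) (hfixK_FF hΦ) (c0 N) (hc0_FF hΦ)
    (Jgen N) (gensFF N) H (Algebra.subset_adjoin (Jd_mem_gensFF N d hd))

/-- `F / K(J)` is finite. -/
theorem finiteDimensional_FF (hΦ : IsBridge N Φ) (H : HInvFF N Φ) :
    FiniteDimensional (IntermediateField.adjoin Kbar {Jgen N}) (FF N) :=
  finiteDimensional (K := Kbar) (g := fun c : Q N => compMer c.out⁻¹)
    (ρ := fun δ : SL(2, ℤ) => compMer δ⁻¹) (hρ_FF hΦ) (hfixK_FF hΦ) (c0 N) (hc0_FF hΦ)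
    (Jgen N) (gensFF N) (gensFF_finite N) (adjoin_gensFF N) H

/-- the conjugate of `J_d` attached to `g`, as an element of `Hol`. -/
def conjHol (d : ℕ) [NeZero d] (g : SL(2, ℤ)) : Hol :=
  compHol g⁻¹ ⟨fun z => jFun (JConj.mulN d z), by
    have h : (fun z : ℍ => jFun (JConj.mulN d z))
        = fun z : ℍ => jFun (Fermat.Agent.S20.Rank.affH d 0 1
            (Fermat.Agent.S20.Rank.natCast_pos' d) one_pos z) := rfl
    rw [h]
    exact Fermat.Agent.S20.Rank.mdiff_comp_affH _ _ _ _ _ mdiff_jFun⟩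

lemma conjHol_apply (d : ℕ) [NeZero d] (g : SL(2, ℤ)) (z : ℍ) :
    (conjHol d g : ℍ → ℂ) z = JConj.conjG jFun d g z := rfl

lemma compMer_phi_Jd (hΦ : IsBridge N Φ) (d : ℕ) [NeZero d] (hd : d ∣ N) (g : SL(2, ℤ)) :
    compMer g⁻¹ (Φ (Jd N d hd)) = algebraMap Hol Mer (conjHol d g) := by
  obtain ⟨h, hh, hpt⟩ := hΦ.gen d inferInstance hd
  rw [hh, compMer_algebraMap]
  congr 1
  refine Hol.ext fun z => ?_
  rw [compHol_apply, hpt _ _ (JConj.coe_mulN d (g⁻¹ • z))]
  rfl

/-- **Reduction of (H) to a statement about a subring `S` of `Hol`** containing the constants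
`ι K` and all conjugates `z ↦ j (d (g⁻¹ z))`, whose `SL(2,ℤ)`-invariant elements are polynomials in
`j` with coefficients in `ι K`. -/
theorem HInvFF_of_subring (hΦ : IsBridge N Φ) (S : Subring Hol)
    (hconst : ∀ a : Kbar, algebraMap ℂ Hol (iota hΦ a) ∈ S)
    (hgen : ∀ (g : SL(2, ℤ)) (d : ℕ) [NeZero d] (_ : d ∣ N), conjHol d g ∈ S)
    (hpoly : ∀ h ∈ S, (∀ (δ : SL(2, ℤ)) (z : ℍ), (h : ℍ → ℂ) (δ • z) = (h : ℍ → ℂ) z) →
      ∃ P : Kbar[X], ∀ z, (h : ℍ → ℂ) z = (P.map (iota hΦ)).eval (jFun z)) :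
    HInvFF N Φ := by
  intro x hx hinv
  have hle : conjRing (K := Kbar) Φ (fun c : Q N => compMer c.out⁻¹) (gensFF N)
      ≤ S.map (algebraMap Hol Mer) := by
    unfold conjRing
    rw [Subring.closure_le]
    rintro x (⟨k, rfl⟩ | ⟨c, s, ⟨d, hne, hd, rfl⟩, rfl⟩)
    · exact ⟨_, hconst k, (phi_algebraMap hΦ k).symm⟩
    · have := hne
      exact ⟨_, hgen c.out d hd, (compMer_phi_Jd hΦ d hd c.out).symm⟩
  obtain ⟨h, hhS, rfl⟩ := hle hx
  have hinv' : ∀ (δ : SL(2, ℤ)) (z : ℍ), (h : ℍ → ℂ) (δ • z) = (h : ℍ → ℂ) z := by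
    intro δ z
    have h1 := hinv δ⁻¹
    simp only [inv_inv] at h1
    rw [compMer_algebraMap] at h1
    have h2 := IsFractionRing.injective Hol Mer h1
    have h3 := congrFun (congrArg Subtype.val h2) z
    exact h3
  obtain ⟨P, hP⟩ := hpoly h hhS hinv'
  refine ⟨P, ?_⟩
  rw [phi_aeval_Jgen hΦ P]
  congr 1
  refine Hol.ext fun z => ?_
  rw [polyHol_apply, hP z]

end concrete

/-! ### discharging the analytic input (H) -/

section analytic

open Fermat.Agent.S29.Dict.BridgeInvC Fermat.Agent.S24.PsiLe Fermat.Agent.S20 ModularCurve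
open UpperHalfPlane
open scoped MatrixGroups

variable {N : ℕ} [NeZero N] {Φ : FF N →+* Mer}

/-- from helper27's `IsRatExp` to helper7's `HasRatExp`. -/
lemma hasRatExp_of_isRatExp {A : Subring ℂ} {f : ℍ → ℂ} (hf : CuspExp.IsRatExp A N f) :
    JPoly.HasRatExp N A f := by
  obtain ⟨m, c, hc, hsum⟩ := hf.exists_hasSum (Nat.pos_of_ne_zero (NeZero.ne N))
  refine ⟨m, PowerSeries.mk c, fun n => by rw [PowerSeries.coeff_mk]; exact hc n, fun z => ?_⟩
  have := hsum z
  simp only [PowerSeries.coeff_mk]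
  exact this

/-- the `q`-expansion of `jFun * q`, with integer coefficients. -/
lemma rep_jFun_mul_q :
    JPoly.Rep 1 (EtaBridge.toC ModularCurve.jNum) (fun z => jFun z * JPoly.qq 1 z) := by
  intro z
  have hq : ‖Function.Periodic.qParam 1 (z : ℂ)‖ < 1 :=
    Function.Periodic.norm_qParam_lt_one one_pos z.im_pos
  have h1 := EtaBridge.rep_jNum _ hq
  rw [EtaBridge.jNumFun_qParam] at h1
  have h2 : JPoly.qq 1 z = Function.Periodic.qParam 1 (z : ℂ) := JPoly.qq_one z
  simp only [h2]
  rw [mul_comm (jFun z)]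
  exact h1

lemma coeffIn_jNum (A : Subring ℂ) : JPoly.CoeffIn A (EtaBridge.toC ModularCurve.jNum) := by
  intro n
  rw [EtaBridge.toC, PowerSeries.coeff_map]
  exact intCast_mem A _

/-- **(H) holds for every bridge.** -/
theorem hInvFF (hΦ : IsBridge N Φ) : HInvFF N Φ := by
  have hN : 0 < N := Nat.pos_of_ne_zero (NeZero.ne N)
  refine HInvFF_of_subring hΦ
    ((CuspExp.ratExpSubring (iota hΦ).range N).comap Hol.toSubring.subtype) ?_ ?_ ?_
  · intro a
    exact CuspExp.isRatExp_const_range (iota hΦ) N a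
  · intro g d _ hd
    exact CuspExp.isRatExp_conjG_jFun (iota hΦ) hN d hd g
  · intro h hh hinv
    have hrat : JPoly.HasRatExp N (iota hΦ).range (h : ℍ → ℂ) := hasRatExp_of_isRatExp hh
    exact JPoly.exists_poly_map_jFun_of_hasRatExp (iota hΦ) (coeffIn_jNum _) rep_jFun_mul_q
      h.2 hinv hrat

/-- **(Inv)** for every bridge, in the shape of `hinv` of `Exhaust.exists_eq_candidate`. -/
theorem inv_of_isBridge (hΦ : IsBridge N Φ) (f : FF N) :
    ∃ n ∈ IntermediateField.adjoin Kbar {Jgen N}, Φ n = ∏ c : Q N, compMer c.out⁻¹ (Φ f) :=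
  inv_FF hΦ (hInvFF hΦ) f

/-- every `J_d` is integral over `K[J]`. -/
theorem isIntegral_Jd_of_isBridge (hΦ : IsBridge N Φ) (d : ℕ) [NeZero d] (hd : d ∣ N) :
    IsIntegral (Algebra.adjoin Kbar {Jgen N}) (Jd N d hd) :=
  isIntegral_Jd hΦ (hInvFF hΦ) d hd

/-- `F / K(J)` is finite. -/
theorem finiteDimensional_of_isBridge (hΦ : IsBridge N Φ) :
    FiniteDimensional (IntermediateField.adjoin Kbar {Jgen N}) (FF N) :=
  finiteDimensional_FF hΦ (hInvFF hΦ)

end analytic

end

end Fermat.Agent.S29.Dict.InvC
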