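import Mathlib
import Fermat.Agent.S29.Dict.CuspFibreC
import Fermat.Agent.S29.Dict.FiniteFibresC

set_option autoImplicit false
set_option linter.unusedSectionVars false
set_option linter.unusedVariables false

/-!
# S29 (R3, Dict, cusp part): the places of `F_ℂ = ℂ(j_d : d ∣ N)` over `J = ∞` are cusps

For a bridge `Φ : FF N →+* Mer` over `ℂ` (`BridgeInvC.IsBridge`) and a place `P` of `FF N` with
`ord_P J < 0` there are `g ∈ SL(2,ℤ)` and `e > 0` (`e = N / width of the cusp g∞`) such that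
* `ord_{i∞} ((Φ f) ∘ g⁻¹) = e · ord_P f` for all `f ≠ 0` (orders in `q_N`);
* every `m ∈ Mer`, `m ≠ 0`, with `m ∘ g⁻¹ ∈ MerInf N` which is invariant under the parabolic
  elements of `Γ₀(N)` has `e ∣ ord_{i∞} (m ∘ g⁻¹)`.

This is parts (a) and (c) of `FibreModel.main` (S24/AbstractFibre) for the fibre model
`CuspFibreC.fibreModelInf` over `y = J⁻¹`, which S24 (`CuspT4`) only used for counting.
-/

namespace Fermat.Agent.S29.Dict.CuspPart

open Fermat.Agent.S24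

open scoped MatrixGroups
open IntermediateField UpperHalfPlane CongruenceSubgroup ModularGroup AlgebraicCurve MulAction
open Fermat.Agent.S20 Fermat.Agent.S24.PsiLe Fermat.Agent.S29.Dict.BridgeInvC
  Fermat.Agent.S29.Dict.PlaceAtC

noncomputable section

variable {N : ℕ} [NeZero N] {Φ : FF N →+* Mer}

/-- the abstract fibre theorem applied to a fibre model over `J = ∞`, keeping exhaustion (a) and
exactness (c). -/
theorem main_inf (hΦ : IsBridge N Φ) {H : Subgroup SL(2, ℤ)}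
    (M : FibreModel Kbar (J N)⁻¹ (Q N) H) :
    (∀ v : Place Kbar (FF N), v.ord (J N) < 0 → ∃ c : Q N, v = M.place c) ∧
      ∀ c : Q N, (M.place c).ord (J N)⁻¹ = Nat.card (MulAction.orbit H c) := by
  classical
  have hJ : Transcendental Kbar (J N) := FiniteFibresC.transcendental_J_of_isBridge hΦ
  have : FiniteDimensional Kbar⟮J N⟯ (FF N) := FiniteFibresC.finiteDimensional_J_of_isBridge hΦ
  have hy : Transcendental Kbar (J N)⁻¹ := FFPrin.transcendental_inv hJ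
  have hfin := FFGenus.zeros_finite' (J N) hJ (J N)⁻¹ hy
  have hsum := FFGenus.sum_ord_zeros' (J N) hJ (J N)⁻¹ hy
  have hZ : ∀ v, v ∈ hfin.toFinset ↔ 0 < v.ord (J N)⁻¹ := fun v => by
    rw [Set.Finite.mem_toFinset]; rfl
  have hn : Module.finrank Kbar⟮(J N)⁻¹⟯ (FF N) = Module.finrank Kbar⟮J N⟯ (FF N) := by
    rw [Exhaust.adjoin_inv_eq]
  have hcard : Fintype.card (Q N) ≤ Module.finrank Kbar⟮(J N)⁻¹⟯ (FF N) := by
    rw [hn, ← Nat.card_eq_fintype_card]
    have h1 : Nat.card (Q N) = ModularCurve.dedekindPsi N := card_quotient_Gamma0 N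
    rw [h1]
    exact hΦ.psi_le_finrank
  have : Nonempty (Q N) := ⟨QuotientGroup.mk 1⟩
  have hmain := M.main (Module.finrank Kbar⟮(J N)⁻¹⟯ (FF N)) hcard hfin.toFinset hZ hsum
    (fun v hv S hS hvS => FFGenus.happrox (J N) hJ (J N)⁻¹ hy v ((hZ v).mp hv) S
      (fun w hw => (hZ w).mp (hS hw)) hvS)
    (fun f hf hfint v hv => by
      have hyv : (J N)⁻¹ ∈ v.toValuationSubring :=
        (mem_iff_ord_nonneg v M.y_ne).mpr ((hZ v).mp hv).le
      exact (mem_iff_ord_nonneg v hf).mp (Exhaust.mem_of_isIntegral v hyv hfint))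
  obtain ⟨hex, -, hord, -, -⟩ := hmain
  refine ⟨fun v hv => hex v ((hZ v).mpr ?_), hord⟩
  rw [v.ord_inv]
  omega

/-- the trace of a conjugate of `T ^ n` is `2`. -/
theorem trace_conj_T_pow (g : SL(2, ℤ)) (n : ℕ) :
    ((g⁻¹ * T ^ n * g : SL(2, ℤ)) : Matrix (Fin 2) (Fin 2) ℤ).trace = 2 := by
  have hT : ((T ^ n : SL(2, ℤ)) : Matrix (Fin 2) (Fin 2) ℤ) = !![1, (n : ℤ); 0, 1] := by
    have := coe_T_zpow (n : ℤ)
    rwa [zpow_natCast] at this
  rw [Matrix.SpecialLinearGroup.coe_mul, Matrix.SpecialLinearGroup.coe_mul,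
    Matrix.trace_mul_comm, ← Matrix.mul_assoc, ← Matrix.SpecialLinearGroup.coe_mul,
    mul_inv_cancel, Matrix.SpecialLinearGroup.coe_one, Matrix.one_mul, hT]
  simp [Matrix.trace_fin_two]

/-- if `T ^ w` fixes the coset of `g` then `g⁻¹ T^w g ∈ Γ₀(N)`. -/
theorem conj_mem_Gamma0_of_smul_eq (g : SL(2, ℤ)) (w : ℕ)
    (h : (T ^ w : SL(2, ℤ)) • (QuotientGroup.mk g : Q N) = QuotientGroup.mk g) :
    g⁻¹ * T ^ w * g ∈ Gamma0 N := by
  have h1 : (QuotientGroup.mk (T ^ w * g) : Q N) = QuotientGroup.mk g := h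
  have h2 := QuotientGroup.eq.mp h1.symm
  rwa [← mul_assoc] at h2

/-- **(Dict, cusp part)** every place of `F_ℂ` over `J = ∞` is a cusp place. -/
theorem exists_cusp_of_place_conj (hΦ : IsBridge N Φ) (P : Place Kbar (FF N))
    (hP : P.ord (J N) < 0) :
    ∃ (g : SL(2, ℤ)) (e : ℕ), 0 < e ∧ e ∣ N ∧
      (∀ f : FF N, f ≠ 0 → Mer.ordInf N (compMer g⁻¹ (Φ f)) = e * P.ord f) ∧
      ∀ m : Mer, m ≠ 0 → compMer g⁻¹ m ∈ MerInf N →
        (∀ n : ℕ, g⁻¹ * T ^ n * g ∈ Gamma0 N → compMer (g⁻¹ * T ^ n * g) m = m) →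
        (e : ℤ) ∣ Mer.ordInf N (compMer g⁻¹ m) := by
  set M := CuspFibreC.fibreModelInf hΦ with hM
  obtain ⟨hex, hord⟩ := main_inf hΦ M
  obtain ⟨c, rfl⟩ := hex P hP
  set g : SL(2, ℤ) := c.out with hg
  have hcg : (QuotientGroup.mk g : Q N) = c := QuotientGroup.out_eq' c
  set w := Nat.card (MulAction.orbit (Subgroup.zpowers (T : SL(2, ℤ))) c) with hw
  have hwpos : 0 < w := CuspFibreC.card_orbit_T_pos N c
  have hwN : w ∣ N := CuspFibreC.card_orbit_T_dvd N c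
  have hTw : (T ^ w : SL(2, ℤ)) • c = c := CuspFibreC.T_pow_card_orbit_smul N c
  -- `e * w = N`
  have hew : (M.gen c : ℤ) * (w : ℤ) = (N : ℤ) := by
    have h1 := M.gen_mul_ord_y c
    rw [hord c] at h1
    exact h1
  have hewN : M.gen c * w = N := by exact_mod_cast hew
  have he : M.gen c = N / w := (Nat.div_eq_of_eq_mul_left hwpos hewN.symm).symm
  refine ⟨g, M.gen c, M.gen_pos c, ⟨w, hewN.symm⟩, fun f hf => ?_, fun m hm hmem hpar => ?_⟩
  · have h1 := M.ν_eq c hf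
    rw [← h1]
    rfl
  · rw [he]
    refine Mer.natDiv_dvd_ordInf_of_compMer N hwpos hwN hmem
      ((map_ne_zero (compMer g⁻¹)).mpr hm) ?_
    have hγ : g⁻¹ * T ^ w * g ∈ Gamma0 N := by
      apply conj_mem_Gamma0_of_smul_eq
      rw [hcg]
      exact hTw
    have h2 := hpar w hγ
    have e1 : g⁻¹ * T ^ w = (g⁻¹ * T ^ w * g) * g⁻¹ := by group
    rw [← compMer_mul, e1, compMer_mul, h2]

/-- **(Dict, cusp part)**, consumer form: the parabolic condition in trace form (every element of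
`Γ₀(N)` of trace `2` fixes `m`) and the cusp condition for all translates. -/
theorem exists_cusp_of_place (hΦ : IsBridge N Φ) (P : Place Kbar (FF N))
    (hP : P.ord (J N) < 0) :
    ∃ (g : SL(2, ℤ)) (e : ℕ), 0 < e ∧
      (∀ f : FF N, f ≠ 0 → Mer.ordInf N (compMer g⁻¹ (Φ f)) = e * P.ord f) ∧
      ∀ m : Mer, m ≠ 0 → (∀ h : SL(2, ℤ), compMer h m ∈ MerInf N) →
        (∀ γ : SL(2, ℤ), γ ∈ Gamma0 N → (γ : Matrix (Fin 2) (Fin 2) ℤ).trace = 2 →
          compMer γ m = m) →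
        (e : ℤ) ∣ Mer.ordInf N (compMer g⁻¹ m) := by
  obtain ⟨g, e, he, -, h1, h2⟩ := exists_cusp_of_place_conj hΦ P hP
  exact ⟨g, e, he, h1, fun m hm hcusp hpar =>
    h2 m hm (hcusp g⁻¹) fun n hn => hpar _ hn (trace_conj_T_pow g n)⟩

/-- consequence used for `D_c`: if `Φ x = m ^ p` with `m` as above then `p ∣ ord_P x` at every place
over `J = ∞`. -/
theorem dvd_ord_of_pow_eq_cusp (hΦ : IsBridge N Φ) (P : Place Kbar (FF N))
    (hP : P.ord (J N) < 0) (m : Mer) (hm : m ≠ 0) (x : FF N) (p : ℕ) (hx : Φ x = m ^ p)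
    (hcusp : ∀ h : SL(2, ℤ), compMer h m ∈ MerInf N)
    (hpar : ∀ γ : SL(2, ℤ), γ ∈ Gamma0 N → (γ : Matrix (Fin 2) (Fin 2) ℤ).trace = 2 →
      compMer γ m = m) :
    (p : ℤ) ∣ P.ord x := by
  obtain ⟨g, e, he, h1, h2⟩ := exists_cusp_of_place hΦ P hP
  have hx0 : x ≠ 0 := by
    rintro rfl
    rw [map_zero] at hx
    exact pow_ne_zero p hm hx.symm
  have e1 := h1 x hx0
  obtain ⟨k, hk⟩ := h2 m hm hcusp hpar
  have hgm : compMer g⁻¹ m ≠ 0 := (map_ne_zero (compMer g⁻¹)).mpr hm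
  have e2 : Mer.ordInf N (compMer g⁻¹ (Φ x)) = p * Mer.ordInf N (compMer g⁻¹ m) := by
    rw [hx, map_pow]
    exact Mer.ordInf_pow N (hcusp g⁻¹) p
  rw [e2, hk] at e1
  -- p * (e * k) = e * ord_P x
  have he0 : (e : ℤ) ≠ 0 := by exact_mod_cast he.ne'
  refine ⟨k, ?_⟩
  apply mul_left_cancel₀ he0
  rw [← e1]
  ring

end

end Fermat.Agent.S29.Dict.CuspPart
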