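import Mathlib
import Fermat.Agent.S29.Dict.BridgeInvC
import Fermat.Agent.S29.ModFunC.Bridge

/-!
# S29 (R3, block (Dict)): the `ℂ`-bridge `PhiK N (RingHom.id ℂ)` of `ModFunC/Bridge.lean` is a
bridge in the sense of `Dict/BridgeInvC.lean`
-/

set_option autoImplicit false

namespace Fermat.Agent.S29.Dict.BridgeGlue

open scoped MatrixGroups
open UpperHalfPlane
open Fermat.Agent.S24 Fermat.Agent.S29.Dict.BridgeInvC

noncomputable section

/-- the bridge over `ℂ`: `FF N = ℂ(j_d : d ∣ N) →+* Mer`, identity on constants. -/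
def PhiC (N : ℕ) [NeZero N] : FF N →+* Mer :=
  Fermat.Agent.S29.ModFunC.PhiK (K := ℂ) N (RingHom.id ℂ)

theorem PhiC_def (N : ℕ) [NeZero N] :
    PhiC N = Fermat.Agent.S29.ModFunC.PhiK (K := ℂ) N (RingHom.id ℂ) := rfl

/-- the generator of `BridgeInvC` is the generator of `ModFunC.Bridge`. -/
theorem Jd_eq (N d : ℕ) [NeZero N] [NeZero d] (hd : d ∣ N) :
    BridgeInvC.Jd N d hd = Fermat.Agent.S29.ModFunC.JdK (K := ℂ) N d hd :=
  Subtype.ext rfl

/-- `PhiC` is the identity on constants. -/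
theorem PhiC_algebraMap (N : ℕ) [NeZero N] (c : ℂ) :
    PhiC N (algebraMap ℂ (FF N) c) = algebraMap ℂ Mer c := by
  have h := Fermat.Agent.S29.ModFunC.PhiK_algebraMap (K := ℂ) N (RingHom.id ℂ) c
  rw [RingHom.id_apply] at h
  exact h.trans (IsScalarTower.algebraMap_apply ℂ Hol Mer c).symm

theorem PhiC_Jd (N : ℕ) [NeZero N] (d : ℕ) [NeZero d] (hd : d ∣ N) :
    PhiC N (BridgeInvC.Jd N d hd) = algebraMap Hol Mer (JBridge.jdHol d) := by
  rw [Jd_eq]
  exact Fermat.Agent.S29.ModFunC.PhiK_JdK (K := ℂ) N (RingHom.id ℂ) d hd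

/-- **`PhiC N` is a bridge.** -/
theorem isBridge_PhiC (N : ℕ) [NeZero N] : IsBridge N (PhiC N) where
  const a := ⟨a, Fermat.Agent.S29.ModFunC.PhiK_algebraMap (K := ℂ) N (RingHom.id ℂ) a⟩
  gen d hne hd := by
    have := hne
    exact ⟨JBridge.jdHol d, PhiC_Jd N d hd, fun z w h => JBridge.jdHol_apply_of_eq d z w h⟩

theorem PhiC_injective (N : ℕ) [NeZero N] : Function.Injective (PhiC N) := (PhiC N).injective

end

end Fermat.Agent.S29.Dict.BridgeGlue
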