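import Mathlib
import Fermat.Agent.S29.Dict.FiniteFibresC
import Fermat.Agent.S24.FFGenus

set_option autoImplicit false
set_option linter.unusedSectionVars false
set_option linter.unusedVariables false

/-!
# (Dict, finite part) places of `F_ℂ = ℂ(j_d : d ∣ N)` which are not poles of `J` are points of `ℍ`

For a bridge `Φ : F_ℂ →+* Mer` (`IsBridge` of `Dict/BridgeInvC`), every place `P` with
`0 ≤ ord_P J` is the place of a point `w ∈ ℍ`: `ord_w (Φ f) = e * ord_P f` with `e ∈ {1, 2, 3}`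
the order of the stabiliser of `w` in `Γ₀(N) / ±1`, and `e` divides the order at `w` of every
meromorphic function invariant under the (torsion) stabiliser of `w` in `Γ₀(N)`.
-/

namespace Fermat.Agent.S29.Dict.FinitePart

open scoped MatrixGroups
open IntermediateField UpperHalfPlane CongruenceSubgroup ModularGroup AlgebraicCurve
open Fermat.Agent.S20 Fermat.Agent.S24 Fermat.Agent.S24.PsiLe Fermat.Agent.S29.Dict.BridgeInvC
  Fermat.Agent.S29.Dict.PlaceAtC Fermat.Agent.S29.Dict.FiniteFibresC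

noncomputable section

variable {N : ℕ} [NeZero N] {Φ : FF N →+* Mer}

/-- the abstract fibre theorem applied to a fibre model over `y` with `K(y) = K(J)`, keeping
exhaustion and exactness. -/
theorem fibre_full (hΦ : IsBridge N Φ) (hJ : Transcendental Kbar (J N))
    [FiniteDimensional Kbar⟮J N⟯ (FF N)] (y : FF N) (hy : Transcendental Kbar y)
    (hyJ : Kbar⟮y⟯ = Kbar⟮J N⟯) {H : Subgroup SL(2, ℤ)}
    (M : FibreModel Kbar y (Q N) H) :
    (∀ v : Place Kbar (FF N), 0 < v.ord y → ∃ c, v = M.place c) ∧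
      (∀ c, (M.place c).ord y = Nat.card (MulAction.orbit H c)) := by
  classical
  have hfin := FFGenus.zeros_finite' (J N) hJ y hy
  have hsum := FFGenus.sum_ord_zeros' (J N) hJ y hy
  have hZ : ∀ v, v ∈ hfin.toFinset ↔ 0 < v.ord y := fun v => by
    rw [Set.Finite.mem_toFinset]; rfl
  have hn : Module.finrank Kbar⟮y⟯ (FF N) = Module.finrank Kbar⟮J N⟯ (FF N) := by
    rw [hyJ]
  have hcard : Fintype.card (Q N) ≤ Module.finrank Kbar⟮y⟯ (FF N) := by
    rw [hn, ← Nat.card_eq_fintype_card]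
    have h1 : Nat.card (Q N) = ModularCurve.dedekindPsi N := card_quotient_Gamma0 N
    rw [h1]
    exact hΦ.psi_le_finrank
  have : Nonempty (Q N) := ⟨QuotientGroup.mk 1⟩
  have hmain := M.main (Module.finrank Kbar⟮y⟯ (FF N)) hcard hfin.toFinset hZ hsum
    (fun v hv S hS hvS => FFGenus.happrox (J N) hJ y hy v ((hZ v).mp hv) S
      (fun w hw => (hZ w).mp (hS hw)) hvS)
    (fun f hf hfint v hv => by
      have hyv : y ∈ v.toValuationSubring :=
        (mem_iff_ord_nonneg v M.y_ne).mpr ((hZ v).mp hv).le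
      exact (mem_iff_ord_nonneg v hf).mp (Exhaust.mem_of_isIntegral v hyv hfint))
  obtain ⟨hex, -, hexact, -, -⟩ := hmain
  exact ⟨fun v hv => hex v ((hZ v).mpr hv), hexact⟩

/-- a place over `J = a` is the place of a point of `ℍ`, for any fibre model made of the `nuAt`. -/
theorem point_of_model (hΦ : IsBridge N Φ) (hJ : Transcendental Kbar (J N))
    [FiniteDimensional Kbar⟮J N⟯ (FF N)] (z0 : ℍ) (a : Kbar) {H : Subgroup SL(2, ℤ)}
    (M : FibreModel Kbar (J N - algebraMap Kbar (FF N) a) (Q N) H)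
    (hν : ∀ c, M.ν c = nuAt Φ c z0)
    (P : Place Kbar (FF N)) (hP : 0 < P.ord (J N - algebraMap Kbar (FF N) a)) :
    ∃ (g : SL(2, ℤ)) (e : ℕ), 0 < e ∧
      (∀ f : FF N, f ≠ 0 → Mer.ordAt (g⁻¹ • z0) (Φ f) = e * P.ord f) ∧
      (e : ℤ) * Nat.card (MulAction.orbit H (QuotientGroup.mk g : Q N)) = M.s := by
  obtain ⟨hex, hexact⟩ := fibre_full hΦ hJ (J N - algebraMap Kbar (FF N) a)
    (transcendental_sub_const hJ a) (adjoin_sub_const a) M
  obtain ⟨c, rfl⟩ := hex P hP
  induction c using QuotientGroup.induction_on with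
  | H g =>
    refine ⟨g, M.gen (QuotientGroup.mk g), M.gen_pos _, fun f hf => ?_, ?_⟩
    · rw [← nuAt_mk hΦ g z0 f, ← hν]
      exact M.ν_eq _ hf
    · have h := M.gen_mul_ord_y (QuotientGroup.mk g)
      rw [hexact] at h
      exact h

/-- transport of a divisibility of orders at a fixed point along a conjugation. -/
theorem dvd_ordAt_of_conj (σ : SL(2, ℤ)) (z0 : ℍ) (k : ℕ)
    (hk : ∀ x : Mer, x ≠ 0 → Mer.comp σ x = x → (k : ℤ) ∣ Mer.ordAt z0 x)
    (g : SL(2, ℤ)) (m : Mer) (hm : m ≠ 0) (hinv : compMer (g⁻¹ * σ * g) m = m) :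
    (k : ℤ) ∣ Mer.ordAt (g⁻¹ • z0) m := by
  have hx : Mer.comp g⁻¹ m ≠ 0 := (Mer.comp g⁻¹).map_ne_zero_iff.mpr hm
  have hinv' : Mer.comp σ (Mer.comp g⁻¹ m) = Mer.comp g⁻¹ m := by
    rw [compMer_eq_comp] at hinv
    have h1 : Mer.comp g⁻¹ (Mer.comp (g⁻¹ * σ * g) m) = Mer.comp g⁻¹ m := by rw [hinv]
    rw [Mer.comp_comp] at h1
    rw [Mer.comp_comp]
    have : g⁻¹ * σ * g * g⁻¹ = g⁻¹ * σ := by group
    rw [this] at h1
    exact h1
  have h := hk _ hx hinv'
  rwa [Mer.ordAt_comp] at h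

/-- if a coset `gΓ₀(N)` is fixed by `σ` then `g⁻¹ σ g ∈ Γ₀(N)`. -/
theorem conj_mem_Gamma0_of_smul_eq {σ g : SL(2, ℤ)}
    (h : σ • (QuotientGroup.mk g : Q N) = QuotientGroup.mk g) : g⁻¹ * σ * g ∈ Gamma0 N := by
  have h1 : (QuotientGroup.mk (σ * g) : Q N) = QuotientGroup.mk g := h
  have h2 := QuotientGroup.eq.mp h1
  have h3 := inv_mem h2
  have e : ((σ * g)⁻¹ * g)⁻¹ = g⁻¹ * σ * g := by group
  rwa [e] at h3

theorem S_pow_twelve : (S : SL(2, ℤ)) ^ 12 = 1 := by
  have h : (S : SL(2, ℤ)) ^ 12 = ((S : SL(2, ℤ)) ^ 2) ^ 6 := by rw [← pow_mul]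
  rw [h, S_sq_eq]
  have h2 : ((-1 : SL(2, ℤ))) ^ 6 = 1 := Even.neg_one_pow (by decide)
  exact h2

theorem ST_pow_twelve : (S * T : SL(2, ℤ)) ^ 12 = 1 := by
  have h : (S * T : SL(2, ℤ)) ^ 12 = ((S * T : SL(2, ℤ)) ^ 3) ^ 4 := by rw [← pow_mul]
  rw [h, ST_cube_eq]
  have h2 : ((-1 : SL(2, ℤ))) ^ 4 = 1 := Even.neg_one_pow (by decide)
  exact h2

theorem conj_pow' (g σ : SL(2, ℤ)) (n : ℕ) : (g⁻¹ * σ * g) ^ n = g⁻¹ * σ ^ n * g := by
  induction n with
  | zero => simp
  | succ n ih => rw [pow_succ, ih, pow_succ]; group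

/-- **(Dict, finite part)**: every place of `F` which is not a pole of `J` is the place of a
point `w` of `ℍ`: analytic orders at `w` are `e` times the orders at the place, and `e` divides
the order at `w` of every meromorphic function invariant under the stabiliser of `w` in
`Γ₀(N)`. -/
theorem exists_point_of_place (hΦ : IsBridge N Φ) (P : Place Kbar (FF N))
    (hP : 0 ≤ P.ord (J N)) :
    ∃ (w : ℍ) (e : ℕ), 0 < e ∧
      (∀ f : FF N, f ≠ 0 → Mer.ordAt w (Φ f) = e * P.ord f) ∧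
      ∀ m : Mer, m ≠ 0 →
        (∀ γ : SL(2, ℤ), γ ∈ Gamma0 N → γ • w = w → γ ^ 12 = 1 → compMer γ m = m) →
          (e : ℤ) ∣ Mer.ordAt w m := by
  classical
  have hJ : Transcendental Kbar (J N) := InvC.transcendental_Jgen hΦ
  have : FiniteDimensional Kbar⟮J N⟯ (FF N) := InvC.finiteDimensional_of_isBridge hΦ
  have hinv := inv_of_isBridge hΦ
  have hJ0 : J N ≠ 0 := by
    have := J_sub_ne_zero hΦ 0
    rwa [map_zero, sub_zero] at this
  have hmem : J N ∈ P.toValuationSubring := (mem_iff_ord_nonneg P hJ0).mpr hP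
  obtain ⟨a, ha | ha⟩ := FFGenus.hres (J N) hJ P (J N) hmem
  · exact absurd (ha ▸ isAlgebraic_algebraMap (R := Kbar) (A := FF N) a) hJ
  by_cases h1728 : a = 1728
  · subst h1728
    obtain ⟨g, e, he, hord, hes⟩ := point_of_model hΦ hJ UpperHalfPlane.I 1728
      (fibreModel1728 hΦ (phi_const_1728 Φ) (normHyp_of_inv hΦ hinv _ _)) (fun c => rfl) P ha
    refine ⟨g⁻¹ • UpperHalfPlane.I, e, he, hord, fun m hm hminv => ?_⟩
    have hs : ((fibreModel1728 hΦ (phi_const_1728 Φ) (normHyp_of_inv hΦ hinv _ _)).s : ℤ) = 2 := rfl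
    rw [hs] at hes
    rcases card_orbit_S N (QuotientGroup.mk g) with ⟨hc, hfix⟩ | ⟨hc, -⟩
    · rw [hc] at hes
      have he2 : e = 2 := by exact_mod_cast (by simpa using hes : (e : ℤ) = 2)
      subst he2
      have hγ : g⁻¹ * S * g ∈ Gamma0 N := conj_mem_Gamma0_of_smul_eq hfix
      have hfixw : (g⁻¹ * S * g) • (g⁻¹ • UpperHalfPlane.I) = g⁻¹ • UpperHalfPlane.I := by
        rw [smul_smul]
        have : g⁻¹ * S * g * g⁻¹ = g⁻¹ * S := by group
        rw [this, mul_smul, S_smul_I]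
      have := dvd_ordAt_of_conj S UpperHalfPlane.I 2
        (fun x hx hxinv => (Mer.even_ordAt_of_S hx S_smul_I hxinv).two_dvd) g m hm
        (hminv _ hγ hfixw (by rw [conj_pow' , S_pow_twelve]; group))
      exact_mod_cast this
    · rw [hc] at hes
      have he1 : e = 1 := by
        have : (e : ℤ) = 1 := by push_cast at hes; linarith
        exact_mod_cast this
      subst he1
      exact one_dvd _
  by_cases h0 : a = 0
  · subst h0
    obtain ⟨g, e, he, hord, hes⟩ := point_of_model hΦ hJ rho 0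
      (fibreModelZero hΦ (phi_const_zero Φ) (normHyp_of_inv hΦ hinv _ _)) (fun c => rfl) P ha
    refine ⟨g⁻¹ • rho, e, he, hord, fun m hm hminv => ?_⟩
    have hs : ((fibreModelZero hΦ (phi_const_zero Φ) (normHyp_of_inv hΦ hinv _ _)).s : ℤ) = 3 := rfl
    rw [hs] at hes
    rcases card_orbit_ST N (QuotientGroup.mk g) with ⟨hc, hfix⟩ | ⟨hc, -⟩
    · rw [hc] at hes
      have he3 : e = 3 := by exact_mod_cast (by simpa using hes : (e : ℤ) = 3)
      subst he3
      have hγ : g⁻¹ * (S * T) * g ∈ Gamma0 N := conj_mem_Gamma0_of_smul_eq hfix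
      have hfixw : (g⁻¹ * (S * T) * g) • (g⁻¹ • rho) = g⁻¹ • rho := by
        rw [smul_smul]
        have : g⁻¹ * (S * T) * g * g⁻¹ = g⁻¹ * (S * T) := by group
        rw [this, mul_smul, ST_smul_rho]
      have := dvd_ordAt_of_conj (S * T) rho 3
        (fun x hx hxinv => Mer.three_dvd_ordAt_of_ST rfl hx ST_smul_rho hxinv) g m hm
        (hminv _ hγ hfixw (by rw [conj_pow', ST_pow_twelve]; group))
      exact_mod_cast this
    · rw [hc] at hes
      have he1 : e = 1 := by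
        have : (e : ℤ) = 1 := by push_cast at hes; linarith
        exact_mod_cast this
      subst he1
      exact one_dvd _
  · obtain ⟨z0, hz0⟩ := exists_point_of_const hΦ a
    have hne := jFun_ne_of_const_ne hΦ hz0
    obtain ⟨g, e, he, hord, hes⟩ := point_of_model hΦ hJ z0 a
      (fibreModelGeneric hΦ z0 hz0 (hne.1 h0) (hne.2 h1728) (normHyp_of_inv hΦ hinv _ _))
      (fun c => rfl) P ha
    refine ⟨g⁻¹ • z0, e, he, hord, fun m hm hminv => ?_⟩
    have hs : ((fibreModelGeneric hΦ z0 hz0 (hne.1 h0) (hne.2 h1728)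
      (normHyp_of_inv hΦ hinv _ _)).s : ℤ) = 1 := rfl
    rw [hs, card_orbit_bot] at hes
    have he1 : e = 1 := by
      have : (e : ℤ) = 1 := by push_cast at hes; linarith
      exact_mod_cast this
    subst he1
    exact one_dvd _

/-- **consumer form, finite places**: if `Φ x = m ^ p` and the multiplier of `m` kills the
torsion elements of `Γ₀(N)` then `p` divides the order of `x` at every place which is not a pole
of `J`. -/
theorem dvd_ord_of_pow_eq_fin (hΦ : IsBridge N Φ) (m : Mer) (hm : m ≠ 0) (x : FF N) (p : ℕ)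
    (hx : Φ x = m ^ p)
    (htors : ∀ γ : SL(2, ℤ), γ ∈ Gamma0 N → γ ^ 12 = 1 → compMer γ m = m)
    (P : Place Kbar (FF N)) (hP : 0 ≤ P.ord (J N)) : (p : ℤ) ∣ P.ord x := by
  have hx0 : x ≠ 0 := by
    rintro rfl
    rw [map_zero] at hx
    exact pow_ne_zero p hm hx.symm
  obtain ⟨w, e, he, hord, hdiv⟩ := exists_point_of_place hΦ P hP
  have h1 := hord x hx0
  rw [hx, Mer.ordAt_pow] at h1
  obtain ⟨k, hk⟩ := hdiv m hm (fun γ hγ _ h12 => htors γ hγ h12)
  rw [hk] at h1
  have he0 : (e : ℤ) ≠ 0 := by exact_mod_cast he.ne'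
  refine ⟨k, ?_⟩
  apply mul_left_cancel₀ he0
  linarith

end

end Fermat.Agent.S29.Dict.FinitePart

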