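import Mathlib
import Fermat.Agent.S29.Dict.FiniteFibresC
import Fermat.Agent.S29.Dict.CuspFibreC

/-!
# S29 (R3, block (Dict)): the place ↔ point dictionary over `ℂ`, consumer statements

`FF N = ℂ(j_d : d ∣ N) ⊆ ℂ((q))`, `Φ : FF N →+* Mer` a bridge (`BridgeInvC.IsBridge`).

* `FinStatement N Φ` / `CuspStatement N Φ`: every place of `FF N` is centred at a point of `ℍ`
  (if `J` is finite at it) or at a cusp (if `J` has a pole), with `ord^an = e · ord_P` and `e`
  dividing the analytic order of every function invariant under the torsion (resp. parabolic)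
  elements of `Γ₀(N)`.  (Proved in `Dict/FinitePart.lean`, `Dict/CuspPart.lean`.)
* `dvd_ord_of_pow_eq_of`: **consumer 1**: if `Φ x = m ^ p` with `m` invariant under torsion and
  parabolic elements of `Γ₀(N)` and meromorphic at the cusps, then `p ∣ ord_P x` at every place.
* `ordAt_eq_zero_or_exists_place`, `exists_place_ordAt`, `dvd_ordAt_of_forall_dvd_ord`:
  **consumer 2**: analytic orders on `ℍ` are multiples of place orders.
-/

set_option autoImplicit false
set_option linter.unusedSectionVars false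
set_option linter.unusedVariables false

namespace Fermat.Agent.S29.Dict.Main

open Fermat.Agent.S24 Fermat.Agent.S24.PsiLe Fermat.Agent.S20
open Fermat.Agent.S29.Dict.BridgeInvC Fermat.Agent.S29.Dict.PlaceAtC
open scoped MatrixGroups
open UpperHalfPlane CongruenceSubgroup AlgebraicCurve

noncomputable section

variable {N : ℕ} [NeZero N] {Φ : FF N →+* Mer}

/-- **(Dict-fin)**: a place at which `J` is finite is centred at a point `w` of `ℍ`;
`ord_w^an = e · ord_P` and `e` divides the order at `w` of every function invariant under the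
torsion elements of `Γ₀(N)`. -/
def FinStatement (N : ℕ) [NeZero N] (Φ : FF N →+* Mer) : Prop :=
  ∀ P : Place ℂ (FF N), 0 ≤ P.ord (J N) →
    ∃ (w : ℍ) (e : ℕ), 0 < e ∧ (∀ f : FF N, f ≠ 0 → Mer.ordAt w (Φ f) = e * P.ord f) ∧
      ∀ m : Mer, m ≠ 0 →
        (∀ γ : SL(2, ℤ), γ ∈ Gamma0 N → γ ^ 12 = 1 → compMer γ m = m) →
        (e : ℤ) ∣ Mer.ordAt w m

/-- **(Dict-cusp)**: a place at which `J` has a pole is centred at a cusp `g ∞`;
`ord_∞ ((Φ f) ∘ g⁻¹) = e · ord_P f` (orders in `q_N`) and `e` divides the order of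
`m ∘ g⁻¹` for every function `m` invariant under the parabolic elements of `Γ₀(N)` (and
meromorphic at all cusps). -/
def CuspStatement (N : ℕ) [NeZero N] (Φ : FF N →+* Mer) : Prop :=
  ∀ P : Place ℂ (FF N), P.ord (J N) < 0 →
    ∃ (g : SL(2, ℤ)) (e : ℕ), 0 < e ∧
      (∀ f : FF N, f ≠ 0 → Mer.ordInf N (compMer g⁻¹ (Φ f)) = e * P.ord f) ∧
      ∀ m : Mer, m ≠ 0 → (∀ h : SL(2, ℤ), compMer h m ∈ MerInf N) →
        (∀ γ : SL(2, ℤ), γ ∈ Gamma0 N →
          ((γ : SL(2, ℤ)) : Matrix (Fin 2) (Fin 2) ℤ).trace = 2 → compMer γ m = m) →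
        (e : ℤ) ∣ Mer.ordInf N (compMer g⁻¹ m)

/-! ### consumer 1 -/

omit [NeZero N] in
theorem ne_zero_of_phi_eq_pow {m : Mer} (hm : m ≠ 0) {x : FF N} {p : ℕ} (hx : Φ x = m ^ p) :
    x ≠ 0 := by
  rintro rfl
  rw [map_zero] at hx
  exact pow_ne_zero p hm hx.symm

/-- **Consumer 1.**  If `Φ x = m ^ p`, `m` invariant under the torsion and the parabolic elements
of `Γ₀(N)` and meromorphic at all cusps, then `p ∣ ord_P x` for every place `P` of `FF N`. -/
theorem dvd_ord_of_pow_eq_of (hfin : FinStatement N Φ) (hcusp : CuspStatement N Φ)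
    (m : Mer) (hm : m ≠ 0) (x : FF N) (p : ℕ) (hx : Φ x = m ^ p)
    (htors : ∀ γ : SL(2, ℤ), γ ∈ Gamma0 N → γ ^ 12 = 1 → compMer γ m = m)
    (hpar : ∀ γ : SL(2, ℤ), γ ∈ Gamma0 N →
      ((γ : SL(2, ℤ)) : Matrix (Fin 2) (Fin 2) ℤ).trace = 2 → compMer γ m = m)
    (hmer : ∀ g : SL(2, ℤ), compMer g m ∈ MerInf N)
    (P : Place ℂ (FF N)) : (p : ℤ) ∣ P.ord x := by
  have hx0 : x ≠ 0 := ne_zero_of_phi_eq_pow hm hx
  rcases le_or_gt 0 (P.ord (J N)) with hP | hP
  · obtain ⟨w, e, he, hord, hdvd⟩ := hfin P hP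
    obtain ⟨k, hk⟩ := hdvd m hm htors
    have h1 := hord x hx0
    rw [hx, Mer.ordAt_pow, hk] at h1
    -- p * (e * k) = e * ord x
    have he0 : (e : ℤ) ≠ 0 := by exact_mod_cast he.ne'
    refine ⟨k, ?_⟩
    apply mul_left_cancel₀ he0
    rw [← h1]
    ring
  · obtain ⟨g, e, he, hord, hdvd⟩ := hcusp P hP
    obtain ⟨k, hk⟩ := hdvd m hm hmer hpar
    have h1 := hord x hx0
    rw [hx, map_pow, Mer.ordInf_pow N (hmer g⁻¹), hk] at h1
    have he0 : (e : ℤ) ≠ 0 := by exact_mod_cast he.ne'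
    refine ⟨k, ?_⟩
    apply mul_left_cancel₀ he0
    rw [← h1]
    ring

/-! ### consumer 2 -/

/-- the coset of `1` -/
abbrev q1 (N : ℕ) : Q N := (QuotientGroup.mk (1 : SL(2, ℤ)) : Q N)

omit [NeZero N] in
theorem nuAt_q1 (hΦ : IsBridge N Φ) (w : ℍ) (f : FF N) :
    nuAt Φ (q1 N) w f = Mer.ordAt w (Φ f) := by
  rw [nuAt_mk hΦ, inv_one, one_smul]

omit [NeZero N] in
/-- **Dichotomy at a point of `ℍ`**: either all elements of `Φ (FF N)` have order `0` at `w`, or
`w` is the centre of a place `P` with `ord_w^an = e · ord_P`. -/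
theorem ordAt_eq_zero_or_exists_place (hΦ : IsBridge N Φ) (w : ℍ) :
    (∀ f : FF N, f ≠ 0 → Mer.ordAt w (Φ f) = 0) ∨
      ∃ (P : Place ℂ (FF N)) (e : ℕ), 0 < e ∧
        ∀ f : FF N, f ≠ 0 → Mer.ordAt w (Φ f) = e * P.ord f := by
  by_cases hnt : ∃ f : FF N, f ≠ 0 ∧ nuAt Φ (q1 N) w f ≠ 0
  · right
    have h := isOrdFun_nuAt hΦ (q1 N) w
    refine ⟨h.place hnt, h.gen hnt, h.gen_pos hnt, fun f hf => ?_⟩
    rw [← nuAt_q1 hΦ w f]
    exact h.eq_gen_mul_ord hnt hf
  · left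
    intro f hf
    by_contra hne
    exact hnt ⟨f, hf, by rwa [nuAt_q1 hΦ w f]⟩

omit [NeZero N] in
/-- **Consumer 2.**  If `n` divides all place orders of `x`, it divides all analytic orders of
`Φ x` on `ℍ`. -/
theorem dvd_ordAt_of_forall_dvd_ord (hΦ : IsBridge N Φ) (x : FF N) (hx : x ≠ 0) (n : ℕ)
    (h : ∀ P : Place ℂ (FF N), (n : ℤ) ∣ P.ord x) (w : ℍ) : (n : ℤ) ∣ Mer.ordAt w (Φ x) := by
  rcases ordAt_eq_zero_or_exists_place hΦ w with h0 | ⟨P, e, -, hP⟩
  · rw [h0 x hx]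
    exact dvd_zero _
  · rw [hP x hx]
    exact Dvd.dvd.mul_left (h P) _

/-- if the bridge is the identity on constants, every point of `ℍ` is the centre of a place. -/
theorem exists_place_ordAt (hΦ : IsBridge N Φ)
    (hconst : ∀ c : ℂ, Φ (algebraMap ℂ (FF N) c) = algebraMap ℂ Mer c) (w : ℍ) :
    ∃ (P : Place ℂ (FF N)) (e : ℕ), 0 < e ∧
      ∀ f : FF N, f ≠ 0 → Mer.ordAt w (Φ f) = e * P.ord f := by
  rcases ordAt_eq_zero_or_exists_place hΦ w with h0 | h
  · exfalso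
    -- `J - j(w)` vanishes at `w`
    have hne : J N - algebraMap Kbar (FF N) (jFun w) ≠ 0 := J_sub_ne_zero hΦ (jFun w)
    have hc : Φ (algebraMap Kbar (FF N) (jFun w)) = toMer (algebraMap ℂ Hol (jFun w)) := by
      rw [hconst]
      exact IsScalarTower.algebraMap_apply ℂ Hol Mer (jFun w)
    have h1 := h0 _ hne
    rw [phi_J_sub hΦ hc, Mer.ordAt_toMer w (jSub_ne_zero _)] at h1
    have h2 : Hol.ordNat w (jSub (jFun w)) ≠ 0 := by
      intro h3
      have h5 : (jSub (jFun w) : ℍ → ℂ) w ≠ 0 :=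
        (Hol.ordNat_eq_zero_iff w (jSub_ne_zero (jFun w))).mp h3
      apply h5
      show jFun w - jFun w = 0
      exact sub_self _
    exact h2 (by exact_mod_cast h1)
  · exact h

end

end Fermat.Agent.S29.Dict.Main
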