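import Mathlib
import Fermat.Agent.S29.Dict.Main
import Fermat.Agent.S29.Dict.FinitePart
import Fermat.Agent.S29.Dict.BridgeGlue

/-!
# S29 (R3, block (Dict)): `FinStatement` unconditionally; consumer 2 at the concrete bridge `PhiC`
-/

set_option autoImplicit false

namespace Fermat.Agent.S29.Dict.FinalFin

open Fermat.Agent.S24 Fermat.Agent.S24.PsiLe Fermat.Agent.S20
open Fermat.Agent.S29.Dict.BridgeInvC Fermat.Agent.S29.Dict.PlaceAtC Fermat.Agent.S29.Dict.Main
open Fermat.Agent.S29.Dict.BridgeGlue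
open scoped MatrixGroups
open UpperHalfPlane CongruenceSubgroup AlgebraicCurve

noncomputable section

variable {N : ℕ} [NeZero N] {Φ : FF N →+* Mer}

/-- **(Dict-fin)** holds for every bridge (= `FinitePart.exists_point_of_place`). -/
theorem finStatement (hΦ : IsBridge N Φ) : FinStatement N Φ := by
  intro P hP
  obtain ⟨w, e, he, h1, h2⟩ := FinitePart.exists_point_of_place hΦ P hP
  exact ⟨w, e, he, h1, fun m hm ht => h2 m hm (fun γ hγ _ h12 => ht γ hγ h12)⟩

/-- consumer 2 at the concrete bridge. -/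
theorem dvd_ordAt_PhiC (N : ℕ) [NeZero N] (x : FF N) (hx : x ≠ 0) (n : ℕ)
    (h : ∀ P : Place ℂ (FF N), (n : ℤ) ∣ P.ord x) (w : ℍ) :
    (n : ℤ) ∣ Mer.ordAt w (PhiC N x) :=
  dvd_ordAt_of_forall_dvd_ord (isBridge_PhiC N) x hx n h w

/-- every point of `ℍ` is the centre of a place of `FF N` (concrete bridge). -/
theorem exists_place_ordAt_PhiC (N : ℕ) [NeZero N] (w : ℍ) :
    ∃ (P : Place ℂ (FF N)) (e : ℕ), 0 < e ∧
      ∀ f : FF N, f ≠ 0 → Mer.ordAt w (PhiC N f) = e * P.ord f :=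
  exists_place_ordAt (isBridge_PhiC N) (PhiC_algebraMap N) w

end

end Fermat.Agent.S29.Dict.FinalFin
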