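import Mathlib
import Fermat.Agent.S29.Dict.FinalFin
import Fermat.Agent.S29.Dict.CuspPart

/-!
# S29 (R3, block (Dict)): the consumer statements of the place ↔ point dictionary, unconditionally

* `finStatement`, `cuspStatement`: both halves of the dictionary for every bridge.
* `dvd_ord_of_pow_eq`: **consumer 1** for every bridge `Φ`.
* `dvd_ord_of_pow_eq_PhiC`: consumer 1 at the concrete bridge `PhiC N = ModFunC.PhiK N (id ℂ)`.
-/

set_option autoImplicit false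

namespace Fermat.Agent.S29.Dict.Final

open Fermat.Agent.S24 Fermat.Agent.S24.PsiLe Fermat.Agent.S20
open Fermat.Agent.S29.Dict.BridgeInvC Fermat.Agent.S29.Dict.PlaceAtC Fermat.Agent.S29.Dict.Main
open Fermat.Agent.S29.Dict.BridgeGlue
open scoped MatrixGroups
open UpperHalfPlane CongruenceSubgroup AlgebraicCurve

noncomputable section

variable {N : ℕ} [NeZero N] {Φ : FF N →+* Mer}

/-- **(Dict-cusp)** holds for every bridge (= `CuspPart.exists_cusp_of_place`). -/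
theorem cuspStatement (hΦ : IsBridge N Φ) : CuspStatement N Φ :=
  fun P hP => CuspPart.exists_cusp_of_place hΦ P hP

/-- **Consumer 1 of (Dict).**  If `Φ x = m ^ p` with `m ≠ 0` invariant under the torsion elements
and the parabolic elements (trace `2`) of `Γ₀(N)`, and all `SL(2,ℤ)`-translates of `m` meromorphic
at `i∞`, then `p ∣ ord_P x` at every place `P` of `FF N = ℂ(j_d : d ∣ N)`. -/
theorem dvd_ord_of_pow_eq (hΦ : IsBridge N Φ) (m : Mer) (hm : m ≠ 0) (x : FF N) (p : ℕ)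
    (hx : Φ x = m ^ p)
    (htors : ∀ γ : SL(2, ℤ), γ ∈ Gamma0 N → γ ^ 12 = 1 → compMer γ m = m)
    (hpar : ∀ γ : SL(2, ℤ), γ ∈ Gamma0 N →
      ((γ : SL(2, ℤ)) : Matrix (Fin 2) (Fin 2) ℤ).trace = 2 → compMer γ m = m)
    (hmer : ∀ g : SL(2, ℤ), compMer g m ∈ MerInf N)
    (P : Place ℂ (FF N)) : (p : ℤ) ∣ P.ord x :=
  dvd_ord_of_pow_eq_of (FinalFin.finStatement hΦ) (cuspStatement hΦ) m hm x p hx htors hpar hmer P

/-- consumer 1 at the concrete bridge `PhiC N`. -/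
theorem dvd_ord_of_pow_eq_PhiC (N : ℕ) [NeZero N] (m : Mer) (hm : m ≠ 0) (x : FF N) (p : ℕ)
    (hx : PhiC N x = m ^ p)
    (htors : ∀ γ : SL(2, ℤ), γ ∈ Gamma0 N → γ ^ 12 = 1 → compMer γ m = m)
    (hpar : ∀ γ : SL(2, ℤ), γ ∈ Gamma0 N →
      ((γ : SL(2, ℤ)) : Matrix (Fin 2) (Fin 2) ℤ).trace = 2 → compMer γ m = m)
    (hmer : ∀ g : SL(2, ℤ), compMer g m ∈ MerInf N)
    (P : Place ℂ (FF N)) : (p : ℤ) ∣ P.ord x :=
  dvd_ord_of_pow_eq (isBridge_PhiC N) m hm x p hx htors hpar hmer P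

/-- consumer 1 in the multiplier form used by the Kummer map: `m` has a multiplier
`χ : Γ₀(N) → ℂ` which is `1` on torsion and on parabolic elements. -/
theorem dvd_ord_of_mult (hΦ : IsBridge N Φ) (m : Mer) (hm : m ≠ 0) (x : FF N) (p : ℕ)
    (hx : Φ x = m ^ p) (χ : SL(2, ℤ) → ℂ)
    (hχ : ∀ γ : SL(2, ℤ), γ ∈ Gamma0 N → compMer γ m = algebraMap ℂ Mer (χ γ) * m)
    (htors : ∀ γ : SL(2, ℤ), γ ∈ Gamma0 N → γ ^ 12 = 1 → χ γ = 1)
    (hpar : ∀ γ : SL(2, ℤ), γ ∈ Gamma0 N →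
      ((γ : SL(2, ℤ)) : Matrix (Fin 2) (Fin 2) ℤ).trace = 2 → χ γ = 1)
    (hmer : ∀ g : SL(2, ℤ), compMer g m ∈ MerInf N)
    (P : Place ℂ (FF N)) : (p : ℤ) ∣ P.ord x := by
  refine dvd_ord_of_pow_eq hΦ m hm x p hx (fun γ hγ h12 => ?_) (fun γ hγ htr => ?_) hmer P
  · rw [hχ γ hγ, htors γ hγ h12, map_one, one_mul]
  · rw [hχ γ hγ, hpar γ hγ htr, map_one, one_mul]

end

end Fermat.Agent.S29.Dict.Final
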